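import Mathlib
import Fermat.Agent.H22.ES.KLModel

/-!
# P-ES / KL-M-ROOT (row 499, helper33): `r`-th roots in Laurent series

* `exists_pow_eq_of_constantCoeff_eq_one` : over a commutative ring in which `r` is invertible,
  every power series with constant coefficient `1` is an `r`-th power (of a power series with
  constant coefficient `1`).
* `modelRoot : Fermat.Agent.H22.KL.ModelRootStatement`.
-/

set_option autoImplicit false

noncomputable section

namespace Fermat.Agent.H33.KLM

open PowerSeries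

section PS

variable {R : Type*} [CommRing R]

/-- the approximating sequence of the `r`-th root of `f` -/
def rootSeq (c : R) (r : ℕ) (f : R⟦X⟧) : ℕ → R⟦X⟧
  | 0 => 1
  | (n + 1) => rootSeq c r f n +
      PowerSeries.C (c * PowerSeries.coeff (n + 1) (f - rootSeq c r f n ^ r)) * X ^ (n + 1)

lemma constantCoeff_rootSeq (c : R) (r : ℕ) (f : R⟦X⟧) (n : ℕ) :
    constantCoeff (rootSeq c r f n) = 1 := by
  induction n with
  | zero => simp [rootSeq]
  | succ n ih => simp [rootSeq, ih]

lemma coeff_rootSeq_succ (c : R) (r : ℕ) (f : R⟦X⟧) (n k : ℕ) (hk : k ≤ n) :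
    PowerSeries.coeff k (rootSeq c r f (n + 1)) = PowerSeries.coeff k (rootSeq c r f n) := by
  have hk' : k ≠ n + 1 := by omega
  have hunf : rootSeq c r f (n + 1) = rootSeq c r f n +
      PowerSeries.C (c * PowerSeries.coeff (n + 1) (f - rootSeq c r f n ^ r)) * X ^ (n + 1) := rfl
  rw [hunf, map_add, PowerSeries.coeff_C_mul, PowerSeries.coeff_X_pow, if_neg hk', mul_zero,
    add_zero]

lemma coeff_rootSeq_of_le (c : R) (r : ℕ) (f : R⟦X⟧) (k : ℕ) :
    ∀ n, k ≤ n → PowerSeries.coeff k (rootSeq c r f n) = PowerSeries.coeff k (rootSeq c r f k) := by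
  intro n hn
  induction n, hn using Nat.le_induction with
  | base => rfl
  | succ n hn ih => rw [coeff_rootSeq_succ c r f n k hn, ih]

/-- key computation: `coeff k ((g + C d * X ^ (n+1)) ^ r - g ^ r)` for `k ≤ n + 1`. -/
lemma coeff_add_pow_sub (g : R⟦X⟧) (hg : constantCoeff g = 1) (d : R) (r n k : ℕ)
    (hk : k ≤ n + 1) :
    PowerSeries.coeff k ((g + PowerSeries.C d * X ^ (n + 1)) ^ r - g ^ r) =
      if k = n + 1 then d * r else 0 := by
  set a := g + PowerSeries.C d * X ^ (n + 1) with ha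
  have hconst_a : constantCoeff a = 1 := by simp [ha, hg]
  have hgeom := geom_sum₂_mul a g r
  have hsub : a - g = PowerSeries.C d * X ^ (n + 1) := by simp [ha]
  rw [← hgeom, hsub]
  set S := ∑ i ∈ Finset.range r, a ^ i * g ^ (r - 1 - i) with hS
  have hS0 : constantCoeff S = r := by
    simp [hS, map_sum, hconst_a, hg]
  have : S * (PowerSeries.C d * X ^ (n + 1)) = X ^ (n + 1) * (PowerSeries.C d * S) := by ring
  rw [this, PowerSeries.coeff_X_pow_mul']
  by_cases hkn : k = n + 1
  · subst hkn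
    simp [PowerSeries.coeff_C_mul, hS0]
  · have : ¬ (n + 1 ≤ k) := by omega
    simp [this, hkn]

lemma coeff_rootSeq_pow (c : R) (r : ℕ) (hc : c * r = 1) (f : R⟦X⟧)
    (hf : constantCoeff f = 1) (n : ℕ) :
    ∀ k, k ≤ n → PowerSeries.coeff k (rootSeq c r f n ^ r) = PowerSeries.coeff k f := by
  induction n with
  | zero =>
    intro k hk
    have hk0 : k = 0 := by omega
    subst hk0
    simp [rootSeq, hf]
  | succ n ih =>
    intro k hk
    have hkey := coeff_add_pow_sub (rootSeq c r f n) (constantCoeff_rootSeq c r f n)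
      (c * PowerSeries.coeff (n + 1) (f - rootSeq c r f n ^ r)) r n k hk
    have hunf : rootSeq c r f (n + 1) = rootSeq c r f n +
      PowerSeries.C (c * PowerSeries.coeff (n + 1) (f - rootSeq c r f n ^ r)) * X ^ (n + 1) := rfl
    rw [hunf]
    rw [map_sub] at hkey
    by_cases hkn : k = n + 1
    · subst hkn
      rw [if_pos rfl] at hkey
      have h1 : PowerSeries.coeff (n + 1) ((rootSeq c r f n +
          PowerSeries.C (c * PowerSeries.coeff (n + 1) (f - rootSeq c r f n ^ r)) *
            X ^ (n + 1)) ^ r) =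
          PowerSeries.coeff (n + 1) (rootSeq c r f n ^ r) +
            c * PowerSeries.coeff (n + 1) (f - rootSeq c r f n ^ r) * r := by
        rw [← hkey]; ring
      rw [h1, map_sub]
      have : c * (PowerSeries.coeff (n + 1) f - PowerSeries.coeff (n + 1) (rootSeq c r f n ^ r))
          * (r : R) = (c * r) * (PowerSeries.coeff (n + 1) f -
            PowerSeries.coeff (n + 1) (rootSeq c r f n ^ r)) := by ring
      rw [this, hc]; ring
    · rw [if_neg hkn] at hkey
      have hk' : k ≤ n := by omega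
      rw [← ih k hk']
      exact sub_eq_zero.mp hkey

/-- **`r`-th roots of `1`-units in `R⟦X⟧`** when `r` is invertible in `R`. -/
theorem exists_pow_eq_of_constantCoeff_eq_one (r : ℕ) (c : R) (hc : c * r = 1) (f : R⟦X⟧)
    (hf : constantCoeff f = 1) :
    ∃ w : R⟦X⟧, constantCoeff w = 1 ∧ w ^ r = f := by
  set w : R⟦X⟧ := PowerSeries.mk fun k => PowerSeries.coeff k (rootSeq c r f k) with hw
  have hwn : ∀ n, (X : R⟦X⟧) ^ (n + 1) ∣ w - rootSeq c r f n := by
    intro n
    rw [PowerSeries.X_pow_dvd_iff]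
    intro m hm
    rw [map_sub, hw, PowerSeries.coeff_mk, coeff_rootSeq_of_le c r f m n (by omega), sub_self]
  refine ⟨w, ?_, ?_⟩
  · rw [hw, ← PowerSeries.coeff_zero_eq_constantCoeff_apply, PowerSeries.coeff_mk,
      PowerSeries.coeff_zero_eq_constantCoeff_apply, constantCoeff_rootSeq]
  · ext n
    have h1 : (X : R⟦X⟧) ^ (n + 1) ∣ w ^ r - rootSeq c r f n ^ r :=
      (hwn n).trans (sub_dvd_pow_sub_pow _ _ _)
    rw [PowerSeries.X_pow_dvd_iff] at h1
    have h2 := h1 n (by omega)
    rw [map_sub, sub_eq_zero] at h2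
    rw [h2, coeff_rootSeq_pow c r hc f hf n n le_rfl]

end PS

/-- **KL-M-ROOT** -/
theorem modelRoot : Fermat.Agent.H22.KL.ModelRootStatement := by
  intro K₁ _ _ r hr u hu hdvd hγ
  obtain ⟨γ, hγ⟩ := hγ
  obtain ⟨m, hm⟩ := hdvd
  have hlc : u.leadingCoeff ≠ 0 := by
    rw [Ne, HahnSeries.leadingCoeff_eq_zero]; exact hu
  have hγ0 : γ ≠ 0 := by
    rintro rfl
    rw [zero_pow (by omega)] at hγ
    exact hlc hγ.symm
  have hr0 : (r : K₁) ≠ 0 := by exact_mod_cast (by omega : r ≠ 0)
  -- the power series part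
  set p : K₁⟦X⟧ := u.powerSeriesPart with hp
  have hp0 : constantCoeff p = u.leadingCoeff := by
    rw [← PowerSeries.coeff_zero_eq_constantCoeff_apply, hp, LaurentSeries.powerSeriesPart_coeff,
      HahnSeries.leadingCoeff_eq]
    simp
  set f : K₁⟦X⟧ := PowerSeries.C (u.leadingCoeff)⁻¹ * p with hf
  have hf0 : constantCoeff f = 1 := by
    simp [hf, hp0, hlc]
  obtain ⟨w₀, -, hw₀⟩ := exists_pow_eq_of_constantCoeff_eq_one r ((r : K₁)⁻¹)
    (inv_mul_cancel₀ hr0) f hf0
  refine ⟨HahnSeries.single m γ * HahnSeries.ofPowerSeries ℤ K₁ w₀, ?_⟩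
  rw [mul_pow, HahnSeries.single_pow, ← map_pow, hw₀, hγ, hf]
  have hu' := LaurentSeries.single_order_mul_powerSeriesPart u
  rw [hm] at hu'
  rw [map_mul]
  have hC : HahnSeries.ofPowerSeries ℤ K₁ (PowerSeries.C (u.leadingCoeff)⁻¹) =
      HahnSeries.single (0 : ℤ) (u.leadingCoeff)⁻¹ := by
    rw [HahnSeries.ofPowerSeries_C]; rfl
  rw [hC, ← mul_assoc, HahnSeries.single_mul_single]
  rw [mul_inv_cancel₀ hlc, add_zero]
  have : (r • m : ℤ) = (r : ℤ) * m := by simp
  rw [this]
  exact hu'

end Fermat.Agent.H33.KLM
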